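import Mathlib.RingTheory.DedekindDomain.Different
import Mathlib.RingTheory.Trace.Quotient

/-!
# Lib/KW, piece TAME (helper104)

`count_differentIdeal_eq`: for a finite separable extension of Dedekind domains `B / A`, a nonzero
maximal ideal `p` of `A` with residue field of characteristic zero and a nonzero prime `P` of `B`
over `p`, the exponent of `P` in the different is exactly `e(P | p) - 1` (tame ramification).

Mathlib only.  Exact statement of `Fermat.Agent.Lib.KW.Skel.count_differentIdeal_eq`
(skeleton of helper650).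
-/

set_option autoImplicit false

namespace Fermat.Agent.Lib.KW.H104

attribute [local instance] FractionRing.liftAlgebra FractionRing.isScalarTower_liftAlgebra

open UniqueFactorizationMonoid

/-- If `P' * Q = p B` with `P'`, `Q` coprime, `P' ≠ ⊤`, and the residue field `A / p` has
characteristic zero, then `P'` does not divide the different. -/
theorem not_dvd_differentIdeal_of_isCoprime_of_charZero
    {A B : Type*} [CommRing A] [IsDedekindDomain A] [CommRing B] [IsDedekindDomain B]
    [Algebra A B] [Module.Finite A B] [Module.IsTorsionFree A B]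
    [Algebra.IsSeparable (FractionRing A) (FractionRing B)]
    (p : Ideal A) [p.IsMaximal] [CharZero (A ⧸ p)]
    (P' Q : Ideal B) (hP'top : P' ≠ ⊤) (hPQ : IsCoprime P' Q)
    (hP : P' * Q = Ideal.map (algebraMap A B) p) :
    ¬ P' ∣ differentIdeal A B := by
  let _i0 : Field (A ⧸ p) := Ideal.Quotient.field p
  let _i1 : Algebra (A ⧸ p) (B ⧸ P') := Ideal.Quotient.algebraQuotientOfLEComap (by
      rw [← Ideal.map_le_iff_le_comap, ← hP]
      exact Ideal.mul_le_left)
  let _i2 : Algebra (A ⧸ p) (B ⧸ Q) := Ideal.Quotient.algebraQuotientOfLEComap (by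
      rw [← Ideal.map_le_iff_le_comap, ← hP]
      exact Ideal.mul_le_right)
  have _i3 : IsScalarTower A (A ⧸ p) (B ⧸ P') := .of_algebraMap_eq' rfl
  have _i4 : IsScalarTower A (A ⧸ p) (B ⧸ Q) := .of_algebraMap_eq' rfl
  have _i5 : Module.Finite (A ⧸ p) (B ⧸ P') :=
    Module.Finite.of_restrictScalars_finite A (A ⧸ p) (B ⧸ P')
  have _i6 : Module.Finite (A ⧸ p) (B ⧸ Q) :=
    Module.Finite.of_restrictScalars_finite A (A ⧸ p) (B ⧸ Q)
  have _i7 : Nontrivial (B ⧸ P') := Ideal.Quotient.nontrivial_iff.mpr hP'top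
  let e : (B ⧸ p.map (algebraMap A B)) ≃ₐ[A ⧸ p] ((B ⧸ P') × B ⧸ Q) :=
    { __ := (Ideal.quotEquivOfEq hP.symm).trans (Ideal.quotientMulEquivQuotientProd P' Q hPQ),
      commutes' := Quotient.ind fun _ ↦ rfl }
  obtain ⟨y, hy⟩ := Ideal.Quotient.mk_surjective (e.symm (1, 0))
  refine not_dvd_differentIdeal_of_intTrace_not_mem A P' Q hP y ?_ ?_
  · have := congr((e $hy).2)
    simp at this
    simpa [e, Ideal.Quotient.eq_zero_iff_mem] using this
  · rw [← Ideal.Quotient.eq_zero_iff_mem, ← Algebra.trace_quotient_eq_of_isDedekindDomain,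
      hy, Algebra.trace_eq_of_algEquiv, Algebra.trace_prod_apply]
    have h1 : Algebra.trace (A ⧸ p) (B ⧸ P') 1 = (Module.finrank (A ⧸ p) (B ⧸ P') : A ⧸ p) := by
      have := Algebra.trace_algebraMap (R := A ⧸ p) (S := B ⧸ P') (1 : A ⧸ p)
      rw [map_one] at this
      rw [this]
      simp
    simp only [map_zero, add_zero, h1]
    have hpos : 0 < Module.finrank (A ⧸ p) (B ⧸ P') := Module.finrank_pos
    exact_mod_cast hpos.ne'

/-- **TAME**.  Tame ramification: the exact exponent of the different. -/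
theorem count_differentIdeal_eq
    {A B : Type*} [CommRing A] [IsDedekindDomain A] [CommRing B] [IsDedekindDomain B]
    [Algebra A B] [Module.Finite A B] [Module.IsTorsionFree A B]
    [Algebra.IsSeparable (FractionRing A) (FractionRing B)]
    (p : Ideal A) [p.IsMaximal] (hp : p ≠ ⊥) [CharZero (A ⧸ p)]
    (P : Ideal B) [P.IsPrime] (hP : P ≠ ⊥) [P.LiesOver p] :
    (UniqueFactorizationMonoid.normalizedFactors (differentIdeal A B)).count P =
      (UniqueFactorizationMonoid.normalizedFactors (p.map (algebraMap A B))).count P - 1 := by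
  classical
  have hPmax : P.IsMaximal := Ideal.IsPrime.isMaximal inferInstance hP
  have hp' : p.map (algebraMap A B) ≠ ⊥ := (Ideal.map_eq_bot_iff_of_injective
    (FaithfulSMul.algebraMap_injective A B)).not.mpr hp
  obtain ⟨Q, hPQ, hpe⟩ := Ideal.eq_prime_pow_mul_coprime hp' P
  set e := (normalizedFactors (p.map (algebraMap A B))).count P with he
  have hle : p.map (algebraMap A B) ≤ P :=
    Ideal.map_le_iff_le_comap.mpr (Ideal.LiesOver.over (P := P) (p := p)).le
  have he1 : 1 ≤ e := by
    rcases Nat.eq_zero_or_pos e with h0 | h0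
    · exfalso
      rw [h0, pow_zero, one_mul] at hpe
      have : Q ≤ P := hpe ▸ hle
      have htop : P ⊔ Q = P := sup_eq_left.mpr this
      rw [htop] at hPQ
      exact hPmax.ne_top hPQ
    · exact h0
  have hene : e ≠ 0 := by omega
  have h1 : P ^ (e - 1) ∣ differentIdeal A B :=
    pow_sub_one_dvd_differentIdeal A P e hp ⟨Q, hpe⟩
  have hcop : IsCoprime (P ^ e) Q :=
    (Ideal.isCoprime_iff_sup_eq.mpr hPQ).pow_left
  have hPtop : P ^ e ≠ ⊤ := by
    intro h
    have h1 : P ^ e ≤ P := Ideal.pow_le_self hene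
    rw [h] at h1
    exact hPmax.ne_top (top_le_iff.mp h1)
  have h2 : ¬ P ^ e ∣ differentIdeal A B :=
    not_dvd_differentIdeal_of_isCoprime_of_charZero p (P ^ e) Q hPtop hcop hpe.symm
  apply Ideal.count_normalizedFactors_eq
  · exact Ideal.dvd_iff_le.mp h1
  · rw [Nat.sub_add_cancel he1]
    exact fun h => h2 (Ideal.dvd_iff_le.mpr h)

end Fermat.Agent.Lib.KW.H104
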